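import Mathlib
import Fermat.Agent.LT.T3.R.Spec
import Fermat.Agent.LT.T6.H543.CartanR
import Fermat.Agent.LT.T6.H131.EisInt
import Fermat.Agent.LT.T6.H162.SphAvgOf

/-!
# Row LT, tower T3, station T3.18R, leaf R.2 `R.MeanActsRC` (helper96, registry row 2299)

OFF-MAIN.  `meanActsRC96 : R.MeanActsRC` VERBATIM (`LT/T3/R/Spec.lean`, helper14, sha256
a528b35a): a test function `F` of weight `n` on `GL₂(ℝ)` acts on the joint eigenfunctions of the
circle means (class `locClassR n m`) by a scalar.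

Proof = the `K`-average, with the circle `θ ↦ k_θ = rotR θ` in place of a Haar measure of `SO(2)`:
`2π ∫ Ψ(y h) F(h) dμ = ∫₀^{2π} ∫ χ(-θ) Ψ(y k_θ h) F(h) dμ dθ = ∫ J(h) F(h) dμ` (left invariance,
weight of `F`, Fubini on `[0, 2π] × supp F`), `J(h) = ∫₀^{2π} χ(-θ) Ψ(y k_θ h) dθ`; for
`h = k_α · e^{ζ/2} a_t · k_β` (`cartanRC_h543`, helper543) `J(h) = 2π χ(α) χ(β) m̃(t) Ψ(y)`
(weight of `Ψ`, invariance under the positive scalars, periodicity, the circle mean property for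
`Y θ = k_θ a_t k_{-θ}`; `m̃ t = m t` for `t > 0`, `m̃ 0 = 1`).  `C = ∫_{supp F} φ F dμ` with
`φ(h) = χ(α) χ(β) m̃(t)` for a CHOSEN Cartan decomposition of `h` (Bochner integral; NO
measurability of `m` or of `φ` is needed: the constant `Ψ(y)` is pulled out unconditionally).
-/

set_option autoImplicit false
set_option linter.style.haveILetI false
set_option linter.unusedSectionVars false

open MeasureTheory
open Fermat.Agent.LT.T6 Fermat.Agent.LT.T6.H830 Fermat.Agent.LT.T6.H131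
open Fermat.Agent.LT.T6.H162 Fermat.Agent.LT.T6.H543

noncomputable section

namespace Fermat.Agent.LT.T3.R.H96

open Fermat.Agent.LT.T3.R

/-! ## Topology of `GL₂(ℝ)` -/

theorem secondCountable_GLR96 : SecondCountableTopology (GL (Fin 2) ℝ) := by
  haveI : SecondCountableTopology (Matrix (Fin 2) (Fin 2) ℝ) :=
    inferInstanceAs (SecondCountableTopology (Fin 2 → Fin 2 → ℝ))
  haveI : SecondCountableTopology (Matrix (Fin 2) (Fin 2) ℝ)ᵐᵒᵖ :=
    MulOpposite.opHomeomorph.symm.secondCountableTopology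
  exact Units.isEmbedding_embedProduct.secondCountableTopology

/-! ## Rotations, the torus, the scalars -/

/-- `χ_n(k_{-θ}) = χ_n(k_θ)⁻¹`. -/
theorem wtChar_rot_neg96 (n : ℤ) (θ : ℝ) :
    wtChar n (rotR (-θ)) = (wtChar n (rotR θ))⁻¹ := by
  rw [wtChar_rotR_h131, wtChar_rotR_h131, ← Complex.exp_neg]
  congr 1
  push_cast
  ring

/-- `χ_n(k_{-θ}) = χ_n(k_α) χ_n(k_{-(θ + α)})`. -/
theorem wtChar_rot_shift96 (n : ℤ) (θ α : ℝ) :
    wtChar n (rotR (-θ)) = wtChar n (rotR α) * wtChar n (rotR (-(θ + α))) := by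
  rw [wtChar_rotR_h131, wtChar_rotR_h131, wtChar_rotR_h131, ← Complex.exp_add]
  congr 1
  push_cast
  ring

theorem rotR_periodic96 : Function.Periodic rotR (2 * Real.pi) := fun θ =>
  rotR_add_two_pi162 θ

theorem rotR_neg_periodic96 : Function.Periodic (fun θ => rotR (-θ)) (2 * Real.pi) := by
  intro θ
  show rotR (-(θ + 2 * Real.pi)) = rotR (-θ)
  rw [← rotR_add_two_pi162 (-(θ + 2 * Real.pi))]
  congr 1
  ring

/-- `e^{ζ/2} a_t = a_t · e^{ζ/2}`. -/
theorem bR_split96 (ζ t : ℝ) : bR ζ t 0 = bR 0 t 0 * bR ζ 0 0 := by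
  apply Units.ext
  rw [Units.val_mul, coe_bR830, coe_bR830, coe_bR830]
  have h1 : Real.exp ((ζ + t) / 2) = Real.exp ((0 + t) / 2) * Real.exp ((ζ + 0) / 2) := by
    rw [← Real.exp_add]; congr 1; ring
  have h2 : Real.exp ((ζ - t) / 2) = Real.exp ((0 - t) / 2) * Real.exp ((ζ - 0) / 2) := by
    rw [← Real.exp_add]; congr 1; ring
  ext i j
  fin_cases i <;> fin_cases j <;> simp [Matrix.mul_apply, Fin.sum_univ_two, h1, h2]

theorem bR_scalar96 (ζ : ℝ) :
    ((bR ζ 0 0 : GL (Fin 2) ℝ) : Matrix (Fin 2) (Fin 2) ℝ)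
      = Matrix.diagonal (fun _ => Real.exp (ζ / 2)) := by
  rw [coe_bR830]
  ext i j
  fin_cases i <;> fin_cases j <;> simp

theorem bR_zero96 : bR 0 0 0 = 1 := by
  apply Units.ext
  rw [coe_bR830]
  ext i j
  fin_cases i <;> fin_cases j <;> simp

/-- The circle `Y θ = k_θ a_t k_{-θ}` has the matrix of the mean value property. -/
theorem circle_coe96 (t θ : ℝ) :
    ((rotR θ * bR 0 t 0 * rotR (-θ) : GL (Fin 2) ℝ) : Matrix (Fin 2) (Fin 2) ℝ)
      = !![Real.cos θ, -Real.sin θ; Real.sin θ, Real.cos θ]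
          * !![Real.exp (t / 2), 0; 0, Real.exp (-(t / 2))]
          * !![Real.cos θ, Real.sin θ; -Real.sin θ, Real.cos θ] := by
  rw [Units.val_mul, Units.val_mul, coe_rotR830, coe_rotR830, coe_bR830]
  have h1 : Real.exp ((0 + t) / 2) = Real.exp (t / 2) := by congr 1; ring
  have h2 : Real.exp ((0 - t) / 2) = Real.exp (-(t / 2)) := by congr 1; ring
  rw [h1, h2, Real.cos_neg, Real.sin_neg, neg_neg, mul_zero]

/-! ## The members of the class -/

section Class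

variable {n : ℤ} {m : ℝ → ℂ} {Ψ : GL (Fin 2) ℝ → ℂ}

theorem cls_cont96 (hΨ : Ψ ∈ locClassR n m) : Continuous Ψ := hΨ.1

theorem cls_rot96 (hΨ : Ψ ∈ locClassR n m) (g : GL (Fin 2) ℝ) (β : ℝ) :
    Ψ (g * rotR β) = wtChar n (rotR β) * Ψ g :=
  hΨ.2.1 (rotR β) g (inSO2_rotR_h131 β)

theorem cls_scalar96 (hΨ : Ψ ∈ locClassR n m) (g : GL (Fin 2) ℝ) (ζ : ℝ) :
    Ψ (g * bR ζ 0 0) = Ψ g :=
  hΨ.2.2.1 (bR ζ 0 0) g (Real.exp (ζ / 2)) (Real.exp_pos _) (bR_scalar96 ζ)

theorem cls_mean96 (hΨ : Ψ ∈ locClassR n m) {t : ℝ} (ht : 0 < t) (x : GL (Fin 2) ℝ) :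
    (∫ θ in (0 : ℝ)..(2 * Real.pi), Ψ (x * (rotR θ * bR 0 t 0 * rotR (-θ))))
      = ((2 * Real.pi : ℝ) : ℂ) * m t * Ψ x :=
  hΨ.2.2.2 t ht (fun θ => rotR θ * bR 0 t 0 * rotR (-θ)) (fun θ => circle_coe96 t θ) x

/-- The value of the eigenvalue function used by the average (`1` at `t = 0`). -/
def mT96 (m : ℝ → ℂ) (t : ℝ) : ℂ := if t = 0 then 1 else m t

/-- The circle mean, `t ≥ 0`. -/
theorem cls_mean_all96 (hΨ : Ψ ∈ locClassR n m) {t : ℝ} (ht : 0 ≤ t) (x : GL (Fin 2) ℝ) :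
    (∫ θ in (0 : ℝ)..(2 * Real.pi), Ψ (x * (rotR θ * bR 0 t 0 * rotR (-θ))))
      = ((2 * Real.pi : ℝ) : ℂ) * mT96 m t * Ψ x := by
  rcases ht.eq_or_lt with h0 | hpos
  · subst h0
    have h1 : ∀ θ : ℝ, Ψ (x * (rotR θ * bR 0 0 0 * rotR (-θ))) = Ψ x := by
      intro θ
      have h2 : rotR θ * rotR (-θ) = 1 := by
        have := rotR_neg_mul_rotR_h131 (-θ)
        rwa [neg_neg] at this
      rw [bR_zero96, mul_one, h2, mul_one]
    simp_rw [h1]
    rw [intervalIntegral.integral_const, mT96, if_pos rfl]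
    simp
  · rw [mT96, if_neg hpos.ne']
    exact cls_mean96 hΨ hpos x

/-- **The `K`-average at a Cartan decomposition.** -/
theorem avg_cartan96 (hΨ : Ψ ∈ locClassR n m) (y : GL (Fin 2) ℝ) (ζ α β t : ℝ) (ht : 0 ≤ t) :
    (∫ θ in (0 : ℝ)..(2 * Real.pi),
        wtChar n (rotR (-θ)) * Ψ (y * rotR θ * (rotR α * bR ζ t 0 * rotR β)))
      = ((2 * Real.pi : ℝ) : ℂ) * (wtChar n (rotR α) * wtChar n (rotR β) * mT96 m t) * Ψ y := by
  have hpt : ∀ θ : ℝ, wtChar n (rotR (-θ)) * Ψ (y * rotR θ * (rotR α * bR ζ t 0 * rotR β))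
      = wtChar n (rotR α) * wtChar n (rotR β)
        * Ψ (y * (rotR (θ + α) * bR 0 t 0 * rotR (-(θ + α)))) := by
    intro θ
    have e1 : y * rotR θ * (rotR α * bR ζ t 0 * rotR β)
        = (y * rotR (θ + α) * bR 0 t 0 * bR ζ 0 0) * rotR β := by
      rw [bR_split96 ζ t, ← rotR_mul_rotR162 θ α]
      simp only [mul_assoc]
    have e2 : y * (rotR (θ + α) * bR 0 t 0 * rotR (-(θ + α)))
        = (y * rotR (θ + α) * bR 0 t 0) * rotR (-(θ + α)) := by
      simp only [mul_assoc]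
    rw [e1, cls_rot96 hΨ, cls_scalar96 hΨ, e2, cls_rot96 hΨ, wtChar_rot_shift96 n θ α]
    ring
  simp_rw [hpt]
  rw [intervalIntegral.integral_const_mul]
  have hper : Function.Periodic
      (fun θ : ℝ => Ψ (y * (rotR θ * bR 0 t 0 * rotR (-θ)))) (2 * Real.pi) := by
    intro θ
    show Ψ (y * (rotR (θ + 2 * Real.pi) * bR 0 t 0 * rotR (-(θ + 2 * Real.pi)))) = _
    have h1 : rotR (-(θ + 2 * Real.pi)) = rotR (-θ) := rotR_neg_periodic96 θ
    rw [rotR_periodic96 θ, h1]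
  have hshift : (∫ θ in (0 : ℝ)..(2 * Real.pi),
      Ψ (y * (rotR (θ + α) * bR 0 t 0 * rotR (-(θ + α)))))
      = ∫ θ in (0 : ℝ)..(2 * Real.pi), Ψ (y * (rotR θ * bR 0 t 0 * rotR (-θ))) := by
    rw [intervalIntegral.integral_comp_add_right
      (fun θ : ℝ => Ψ (y * (rotR θ * bR 0 t 0 * rotR (-θ)))) α]
    have := hper.intervalIntegral_add_eq (0 + α) 0
    simp only [zero_add] at this
    rw [zero_add, add_comm (2 * Real.pi) α]
    exact this
  rw [hshift, cls_mean_all96 hΨ ht y]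
  ring

end Class

/-! ## The function `φ` -/

open Classical in
/-- `φ(h) = χ(α) χ(β) m̃(t)` for a chosen Cartan decomposition `h = k_α e^{ζ/2} a_t k_β`
(`0` if `det h ≤ 0`). -/
def phiR96 (n : ℤ) (m : ℝ → ℂ) (h : GL (Fin 2) ℝ) : ℂ :=
  if hd : 0 < (h : Matrix (Fin 2) (Fin 2) ℝ).det then
    wtChar n (rotR (cartanRC_h543 h hd).choose_spec.choose)
      * wtChar n (rotR (cartanRC_h543 h hd).choose_spec.choose_spec.choose)
      * mT96 m (cartanRC_h543 h hd).choose_spec.choose_spec.choose_spec.choose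
  else 0

/-- **The `K`-average**: `∫₀^{2π} χ(-θ) Ψ(y k_θ h) dθ = 2π φ(h) Ψ(y)` for `det h > 0`. -/
theorem avg_point96 {n : ℤ} {m : ℝ → ℂ} {Ψ : GL (Fin 2) ℝ → ℂ} (hΨ : Ψ ∈ locClassR n m)
    (y h : GL (Fin 2) ℝ) (hd : 0 < (h : Matrix (Fin 2) (Fin 2) ℝ).det) :
    (∫ θ in (0 : ℝ)..(2 * Real.pi), wtChar n (rotR (-θ)) * Ψ (y * rotR θ * h))
      = ((2 * Real.pi : ℝ) : ℂ) * phiR96 n m h * Ψ y := by
  have hspec := (cartanRC_h543 h hd).choose_spec.choose_spec.choose_spec.choose_spec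
  rw [phiR96, dif_pos hd]
  have key := avg_cartan96 hΨ y (cartanRC_h543 h hd).choose
    (cartanRC_h543 h hd).choose_spec.choose
    (cartanRC_h543 h hd).choose_spec.choose_spec.choose
    (cartanRC_h543 h hd).choose_spec.choose_spec.choose_spec.choose hspec.1
  rw [← hspec.2] at key
  exact key

/-! ## The core -/

section Core

local instance borelGLR96 : MeasurableSpace (GL (Fin 2) ℝ) := borel (GL (Fin 2) ℝ)

local instance borelSpaceGLR96 : BorelSpace (GL (Fin 2) ℝ) := ⟨rfl⟩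

local instance sctGLR96 : SecondCountableTopology (GL (Fin 2) ℝ) := secondCountable_GLR96

/-- **The core**: the scalar is `∫_{supp F} φ F dμ`. -/
theorem actsOnR96 (μ : Measure (GL (Fin 2) ℝ)) [μ.IsHaarMeasure] (n : ℤ)
    (F : GL (Fin 2) ℝ → ℂ) (hF : IsArchTestR n F) (m : ℝ → ℂ) :
    ActsOnR μ F (locClassR n m) (∫ h in tsupport F, phiR96 n m h * F h ∂μ) := by
  intro Ψ hΨ y
  have hΨc : Continuous Ψ := cls_cont96 hΨ
  have hFc : Continuous F := hF.cont
  have hS : IsCompact (tsupport F) := hF.supp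
  have hSm : MeasurableSet (tsupport F) := (isClosed_tsupport F).measurableSet
  haveI : IsFiniteMeasure (μ.restrict (tsupport F)) :=
    ⟨by rw [Measure.restrict_apply_univ]; exact hS.measure_lt_top⟩
  have h2pi : (0 : ℝ) ≤ 2 * Real.pi := by positivity
  set lam : Measure ℝ := (volume : Measure ℝ).restrict (Set.Ioc 0 (2 * Real.pi)) with hlam
  haveI : IsFiniteMeasure lam :=
    ⟨by rw [hlam, Measure.restrict_apply_univ, Real.volume_Ioc]; exact ENNReal.ofReal_lt_top⟩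
  have hsupp : ∀ g : GL (Fin 2) ℝ → ℂ,
      ∫ h in tsupport F, g h * F h ∂μ = ∫ h, g h * F h ∂μ := by
    intro g
    refine setIntegral_eq_integral_of_forall_compl_eq_zero fun h hh => ?_
    rw [image_eq_zero_of_notMem_tsupport hh, mul_zero]
  -- step 1: translation by a rotation
  have htrans : ∀ θ : ℝ,
      ∫ h in tsupport F, (wtChar n (rotR (-θ)) * Ψ (y * rotR θ * h)) * F h ∂μ
        = ∫ h, Ψ (y * h) * F h ∂μ := by
    intro θ
    rw [hsupp (fun h => wtChar n (rotR (-θ)) * Ψ (y * rotR θ * h))]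
    have h1 := integral_mul_left_eq_self (μ := μ) (fun h => Ψ (y * h) * F h) (rotR θ)
    rw [← h1]
    refine integral_congr_ae (Filter.Eventually.of_forall fun h => ?_)
    show wtChar n (rotR (-θ)) * Ψ (y * rotR θ * h) * F h
      = Ψ (y * (rotR θ * h)) * F (rotR θ * h)
    rw [hF.left (rotR θ) h (inSO2_rotR_h131 θ), wtChar_rot_neg96, mul_assoc y]
    ring
  -- step 2: Fubini
  let Ff : ℝ → GL (Fin 2) ℝ → ℂ := fun θ h =>
    (wtChar n (rotR (-θ)) * Ψ (y * rotR θ * h)) * F h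
  have hFfcont : Continuous (Function.uncurry Ff) := by
    have h0 : Continuous fun z : ℝ × GL (Fin 2) ℝ => wtChar n (rotR (-z.1)) := by
      have : (fun z : ℝ × GL (Fin 2) ℝ => wtChar n (rotR (-z.1)))
          = fun z : ℝ × GL (Fin 2) ℝ =>
            Complex.exp ((n : ℂ) * ((((-z.1 : ℝ)) : ℂ) * Complex.I)) := by
        funext z
        rw [wtChar_rotR_h131]
      rw [this]
      fun_prop
    have h1 : Continuous fun z : ℝ × GL (Fin 2) ℝ => Ψ (y * rotR z.1 * z.2) :=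
      hΨc.comp ((continuous_const.mul (continuous_rotR_h131.comp continuous_fst)).mul
        continuous_snd)
    exact (h0.mul h1).mul (hFc.comp continuous_snd)
  obtain ⟨C, hC⟩ := ((isCompact_Icc (a := (0 : ℝ)) (b := 2 * Real.pi)).prod
    hS).exists_bound_of_continuousOn hFfcont.continuousOn
  have hint : Integrable (Function.uncurry Ff) (lam.prod (μ.restrict (tsupport F))) := by
    refine Integrable.of_bound hFfcont.aestronglyMeasurable C ?_
    have hmeas : MeasurableSet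
        {z : ℝ × GL (Fin 2) ℝ | z.1 ∈ Set.Icc (0 : ℝ) (2 * Real.pi) ∧ z.2 ∈ tsupport F} :=
      measurableSet_Icc.prod hSm
    have hae : ∀ᵐ z ∂lam.prod (μ.restrict (tsupport F)),
        z.1 ∈ Set.Icc (0 : ℝ) (2 * Real.pi) ∧ z.2 ∈ tsupport F := by
      rw [Measure.ae_prod_iff_ae_ae hmeas]
      have hA : ∀ᵐ a ∂lam, a ∈ Set.Icc (0 : ℝ) (2 * Real.pi) := by
        rw [hlam]
        filter_upwards [ae_restrict_mem measurableSet_Ioc] with a ha
        exact Set.Ioc_subset_Icc_self ha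
      filter_upwards [hA] with a ha
      filter_upwards [ae_restrict_mem hSm] with b hb
      exact ⟨ha, hb⟩
    filter_upwards [hae] with z hz
    exact hC z ⟨hz.1, hz.2⟩
  have hswap : ∫ θ, ∫ h, Ff θ h ∂(μ.restrict (tsupport F)) ∂lam
      = ∫ h, ∫ θ, Ff θ h ∂lam ∂(μ.restrict (tsupport F)) := integral_integral_swap hint
  have hleft : ∫ θ, ∫ h, Ff θ h ∂(μ.restrict (tsupport F)) ∂lam
      = ((2 * Real.pi : ℝ) : ℂ) * ∫ h, Ψ (y * h) * F h ∂μ := by
    have : ∀ θ : ℝ, ∫ h, Ff θ h ∂(μ.restrict (tsupport F)) = ∫ h, Ψ (y * h) * F h ∂μ :=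
      fun θ => htrans θ
    simp_rw [this]
    rw [integral_const, hlam, Measure.real, Measure.restrict_apply_univ, Real.volume_Ioc,
      sub_zero, ENNReal.toReal_ofReal h2pi, Complex.real_smul]
  have hright : ∀ h : GL (Fin 2) ℝ, ∫ θ, Ff θ h ∂lam
      = (((2 * Real.pi : ℝ) : ℂ) * Ψ y) * (phiR96 n m h * F h) := by
    intro h
    simp only [Ff]
    rw [integral_mul_const]
    by_cases hFh : F h = 0
    · rw [hFh, mul_zero, mul_zero, mul_zero]
    · have hd := hF.pos h hFh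
      have := avg_point96 hΨ y h hd
      rw [intervalIntegral.integral_of_le h2pi] at this
      rw [hlam, this]
      ring
  have hpi : ((2 * Real.pi : ℝ) : ℂ) ≠ 0 := by
    exact_mod_cast (by positivity : (2 * Real.pi : ℝ) ≠ 0)
  have hfin : ((2 * Real.pi : ℝ) : ℂ) * ∫ h, Ψ (y * h) * F h ∂μ
      = ((2 * Real.pi : ℝ) : ℂ) * ((∫ h in tsupport F, phiR96 n m h * F h ∂μ) * Ψ y) := by
    rw [← hleft, hswap]
    simp_rw [hright]
    rw [integral_const_mul]
    ring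
  exact mul_left_cancel₀ hpi hfin

end Core

/-- **R.2 `MeanActsRC`** (`LT/T3/R/Spec.lean`, VERBATIM). -/
theorem meanActsRC96 : MeanActsRC := by
  intro μr hμr n _ m F hF
  haveI := hμr
  exact ⟨_, actsOnR96 μr n F hF m⟩

/-- The statement, spelled out (check against the bytes of `R/Spec.lean`). -/
example :
    letI : MeasurableSpace (GL (Fin 2) ℝ) := borel (GL (Fin 2) ℝ)
    ∀ μr : Measure (GL (Fin 2) ℝ), μr.IsHaarMeasure →
    ∀ n : ℤ, IsWt n → ∀ m : ℝ → ℂ, ∀ F : GL (Fin 2) ℝ → ℂ, T6.IsArchTestR n F →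
      ∃ C : ℂ, ∀ Ψ ∈ locClassR n m, ∀ y : GL (Fin 2) ℝ,
        ∫ h, Ψ (y * h) * F h ∂μr = C * Ψ y :=
  meanActsRC96

end Fermat.Agent.LT.T3.R.H96

end
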